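import Fermat.Agent.GR.HeckeField.Main
import Fermat.Agent.S18.Level.Fricke
import Fermat.Agent.GAL.Defs

/-!
# TOR / GB / W : the Atkin--Lehner involution `w_q` of the function field of `X₀(M₁ q)`, `q ∤ M₁`

`F = FN (M₁ * q) ⊇ F' = alp (FN M₁)`.  `wq (alp x) = bet x` (`= x(Q^q)`), `wq (bet x) = alp x`.
The `q + 1` conjugates of `z ∈ F` over `F'` are `z` and `(wq z)(ζ^b Q^{1/q})`, `b mod q`
(`emb_gamB_eq`).
-/

set_option autoImplicit false

open ModularCurve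

noncomputable section

namespace Fermat.Agent.TOR.GB

open Fermat.Agent.S24 Fermat.Agent.S28 Fermat.Agent.GR.HeckeField Fermat.Agent.S18

/-- abstract algebra: two embeddings `e`, `Φ` of `F` with `e (x i) = Φ (y i)` on generators `x i`
give an endomorphism `w` with `e = Φ ∘ w`. -/
theorem exists_algHom_of_embeddings {K F E I : Type*} [Field K] [Field F] [Field E] [Algebra K F]
    (x y : I → F)
    (hx : ∀ z : F, ∃ r s : MvPolynomial I K, z = MvPolynomial.aeval x r / MvPolynomial.aeval x s)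
    (e Φ : F →+* E) (hc : ∀ a : K, e (algebraMap K F a) = Φ (algebraMap K F a))
    (h : ∀ i, e (x i) = Φ (y i)) :
    ∃ w : F →ₐ[K] F, (∀ i, w (x i) = y i) ∧ ∀ z, e z = Φ (w z) := by
  have key : ∀ P : MvPolynomial I K, e (MvPolynomial.aeval x P) = Φ (MvPolynomial.aeval y P) := by
    intro P
    induction P using MvPolynomial.induction_on with
    | C a => rw [MvPolynomial.aeval_C, MvPolynomial.aeval_C]; exact hc a
    | add p q hp hq => rw [map_add, map_add, map_add, map_add, hp, hq]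
    | mul_X p i hp =>
      rw [map_mul, map_mul, map_mul, map_mul, hp, MvPolynomial.aeval_X, MvPolynomial.aeval_X, h]
  obtain ⟨w, hw⟩ := fricke_exists_algHom x y hx (fun P => by
    rw [← map_eq_zero e, key, map_eq_zero])
  refine ⟨w, hw, fun z => ?_⟩
  have hwP : ∀ P : MvPolynomial I K, w (MvPolynomial.aeval x P) = MvPolynomial.aeval y P := by
    intro P
    rw [MvPolynomial.comp_aeval_apply]
    have : (fun i => w (x i)) = y := funext hw
    rw [this]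
  obtain ⟨r, s, rfl⟩ := hx z
  rw [map_div₀, map_div₀, map_div₀, key, key, hwP, hwP]

variable (M₁ q : ℕ) [NeZero M₁] [NeZero q]

/-- the generators `alp (j(Q^d))`, `bet (j(Q^d))`, `d ∣ M₁`. -/
def genX (i : FrickeI M₁ × Bool) : FN (M₁ * q) :=
  if i.2 then bet M₁ q (frickeX M₁ i.1) else alp M₁ q (frickeX M₁ i.1)

theorem exists_genX_eq (hq : q.Prime) (P : FrickeI (M₁ * q)) :
    ∃ i, genX M₁ q i = frickeX (M₁ * q) P := by
  obtain ⟨⟨d, e⟩, h⟩ := P
  have h' : M₁ * q = d * e := h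
  have hq0 : 0 < q := hq.pos
  by_cases hd : q ∣ d
  · obtain ⟨d₀, rfl⟩ := hd
    have h1 : M₁ = d₀ * e := by
      apply Nat.eq_of_mul_eq_mul_left hq0
      rw [mul_comm q M₁, h']; ring
    refine ⟨(⟨(d₀, e), h1⟩, true), ?_⟩
    have : NeZero d₀ := ⟨fun h0 => NeZero.ne M₁ (by rw [h1, h0, zero_mul])⟩
    show bet M₁ q (Jd M₁ d₀ (Dvd.intro _ h1.symm)) = _
    rw [bet_Jd]
    rfl
  · have he : q ∣ e := (hq.dvd_mul.mp (Dvd.intro_left M₁ h')).resolve_left hd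
    obtain ⟨e₀, rfl⟩ := he
    have h1 : M₁ = d * e₀ := by
      apply Nat.eq_of_mul_eq_mul_left hq0
      rw [mul_comm q M₁, h']; ring
    refine ⟨(⟨(d, e₀), h1⟩, false), ?_⟩
    have : NeZero d := ⟨fun h0 => NeZero.ne M₁ (by rw [h1, h0, zero_mul])⟩
    show alp M₁ q (Jd M₁ d (Dvd.intro _ h1.symm)) = _
    rw [alp_Jd]
    rfl

theorem genX_generates (hq : q.Prime) (z : FN (M₁ * q)) :
    ∃ r s : MvPolynomial (FrickeI M₁ × Bool) Kb,
      z = MvPolynomial.aeval (genX M₁ q) r / MvPolynomial.aeval (genX M₁ q) s := by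
  obtain ⟨r, s, hz⟩ := fricke_generates (M₁ * q) z
  choose f hf using exists_genX_eq M₁ q hq
  have h1 : ∀ P : MvPolynomial (FrickeI (M₁ * q)) Kb,
      MvPolynomial.aeval (frickeX (M₁ * q)) P
        = MvPolynomial.aeval (genX M₁ q) (MvPolynomial.rename f P) := by
    intro P
    rw [MvPolynomial.aeval_rename]
    have : genX M₁ q ∘ f = frickeX (M₁ * q) := funext hf
    rw [this]
  exact ⟨MvPolynomial.rename f r, MvPolynomial.rename f s, by rw [hz, h1, h1]⟩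

/-- `z ↦ z(ζ^b Q^{1/q})` in the variable `Q^{1/(M₁ q)}`. -/
def PhiB (b : ℤ) : FN (M₁ * q) →+* LaurentSeries ℂ :=
  (qExpand ℂ M₁).comp ((twist (rootU q b)).comp ((coeffMap iota).comp
    (algebraMap (FN (M₁ * q)) (LaurentSeries Kb))))

theorem PhiB_apply (b : ℤ) (z : FN (M₁ * q)) :
    PhiB M₁ q b z = qExpand ℂ M₁ (twist (rootU q b) (coeffMap iota (z : LaurentSeries Kb))) := rfl

theorem rootU_pow_self (b : ℤ) : rootU q b ^ q = 1 := by
  have h1 : rootU q b = rootU q 1 ^ b := by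
    apply Units.ext
    rw [Units.val_zpow_eq_zpow_val, coe_rootU, coe_rootU, ← Complex.exp_int_mul]
    congr 1
    push_cast
    ring
  rw [h1, ← zpow_natCast, ← zpow_mul, mul_comm, zpow_mul, zpow_natCast,
    (isPrimitiveRoot_rootU q).pow_eq_one, one_zpow]

theorem twist_one' {K : Type*} [CommRing K] (x : LaurentSeries K) : twist (1 : Kˣ) x = x := by
  ext n; simp

theorem emb_gamB_alp (u v : ℤ) (h : u * q - v * M₁ = 1) (b : ℤ) (x : FN M₁) :
    emb M₁ q (gamB M₁ q u v h b) (alp M₁ q x) = PhiB M₁ q b (bet M₁ q x) := by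
  rw [emb_alp M₁ q (gamB_mem M₁ q u v h b), kap_apply, PhiB_apply, coe_heckeAlphaBar,
    coe_heckeBetaBar, coeffMap_qExpand, twist_qExpand, rootU_pow_self, twist_one', qExpand_qExpand]

theorem emb_gamB_bet' (u v : ℤ) (h : u * q - v * M₁ = 1) (b : ℤ) (x : FN M₁) :
    emb M₁ q (gamB M₁ q u v h b) (bet M₁ q x) = PhiB M₁ q b (alp M₁ q x) := by
  rw [emb_gamB_bet, PhiB_apply, coe_heckeAlphaBar]

theorem emb_gamB_algebraMap (u v : ℤ) (h : u * q - v * M₁ = 1) (b : ℤ) (a : Kb) :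
    emb M₁ q (gamB M₁ q u v h b) (algebraMap Kb (FN (M₁ * q)) a)
      = PhiB M₁ q b (algebraMap Kb (FN (M₁ * q)) a) := by
  have h1 := emb_gamB_alp M₁ q u v h b (algebraMap Kb (FN M₁) a)
  rwa [AlgHom.commutes, AlgHom.commutes] at h1

theorem exists_wq_hom (hq : q.Prime) (hqM : ¬ q ∣ M₁) :
    ∃ w : FN (M₁ * q) →ₐ[Kb] FN (M₁ * q),
      (∀ x : FN M₁, w (alp M₁ q x) = bet M₁ q x) ∧ (∀ x : FN M₁, w (bet M₁ q x) = alp M₁ q x) := by
  have hcop : IsCoprime (q : ℤ) (M₁ : ℤ) :=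
    Nat.isCoprime_iff_coprime.mpr ((Nat.Prime.coprime_iff_not_dvd hq).mpr hqM)
  obtain ⟨a, b, hab⟩ := hcop
  have h : a * q - (-b) * M₁ = 1 := by linarith
  obtain ⟨w, hw, -⟩ := exists_algHom_of_embeddings (genX M₁ q)
    (fun i => genX M₁ q (i.1, !i.2)) (genX_generates M₁ q hq)
    (emb M₁ q (gamB M₁ q a (-b) h 0)) (PhiB M₁ q 0) (emb_gamB_algebraMap M₁ q a (-b) h 0)
    (by
      rintro ⟨p, _ | _⟩
      · exact emb_gamB_alp M₁ q a (-b) h 0 _
      · exact emb_gamB_bet' M₁ q a (-b) h 0 _)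
  refine ⟨w, fun x => ?_, fun x => ?_⟩
  · have key : w.comp (alp M₁ q) = bet M₁ q := by
      apply algHom_ext_FN
      intro d _ hd
      obtain ⟨e, he⟩ := hd
      exact hw (⟨(d, e), he⟩, false)
    exact DFunLike.congr_fun key x
  · have key : w.comp (bet M₁ q) = alp M₁ q := by
      apply algHom_ext_FN
      intro d _ hd
      obtain ⟨e, he⟩ := hd
      exact hw (⟨(d, e), he⟩, true)
    exact DFunLike.congr_fun key x

/-- two `Kb`-algebra homs out of `FN (M₁ q)` agreeing on `alp` and `bet` agree. -/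
theorem algHom_ext_alp_bet (hq : q.Prime) {E : Type*} [Field E] [Algebra Kb E]
    {f g : FN (M₁ * q) →ₐ[Kb] E}
    (h1 : ∀ x : FN M₁, f (alp M₁ q x) = g (alp M₁ q x))
    (h2 : ∀ x : FN M₁, f (bet M₁ q x) = g (bet M₁ q x)) : f = g := by
  apply algHom_ext_FN
  intro d _ hd
  obtain ⟨e, he⟩ := hd
  obtain ⟨⟨p, _ | _⟩, hi⟩ := exists_genX_eq M₁ q hq ⟨(d, e), he⟩
  · have : Jd (M₁ * q) d ⟨e, he⟩ = alp M₁ q (frickeX M₁ p) := hi.symm
    rw [this, h1]
  · have : Jd (M₁ * q) d ⟨e, he⟩ = bet M₁ q (frickeX M₁ p) := hi.symm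
    rw [this, h2]

/-- two ring homs out of `FN (M₁ q)` agreeing on `alp` and `bet` agree. -/
theorem ringHom_ext_alp_bet (hq : q.Prime) {E : Type*} [Field E] {f g : FN (M₁ * q) →+* E}
    (h1 : ∀ x : FN M₁, f (alp M₁ q x) = g (alp M₁ q x))
    (h2 : ∀ x : FN M₁, f (bet M₁ q x) = g (bet M₁ q x)) : f = g := by
  apply ringHom_ext_FN
  · intro a
    have := h1 (algebraMap Kb (FN M₁) a)
    rwa [AlgHom.commutes] at this
  · intro d _ hd
    obtain ⟨e, he⟩ := hd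
    obtain ⟨⟨p, _ | _⟩, hi⟩ := exists_genX_eq M₁ q hq ⟨(d, e), he⟩
    · have : Jd (M₁ * q) d ⟨e, he⟩ = alp M₁ q (frickeX M₁ p) := hi.symm
      rw [this, h1]
    · have : Jd (M₁ * q) d ⟨e, he⟩ = bet M₁ q (frickeX M₁ p) := hi.symm
      rw [this, h2]

theorem exists_wq (hq : q.Prime) (hqM : ¬ q ∣ M₁) :
    ∃ w : FN (M₁ * q) ≃ₐ[Kb] FN (M₁ * q),
      (∀ x : FN M₁, w (alp M₁ q x) = bet M₁ q x) ∧ (∀ x : FN M₁, w (bet M₁ q x) = alp M₁ q x) := by
  obtain ⟨w, h1, h2⟩ := exists_wq_hom M₁ q hq hqM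
  have hww : w.comp w = AlgHom.id Kb (FN (M₁ * q)) := by
    apply algHom_ext_alp_bet M₁ q hq
    · intro x
      rw [AlgHom.comp_apply, h1, h2, AlgHom.id_apply]
    · intro x
      rw [AlgHom.comp_apply, h2, h1, AlgHom.id_apply]
  exact ⟨AlgEquiv.ofAlgHom w w hww hww, h1, h2⟩

/-- **The Atkin--Lehner involution `w_q`** of `FN (M₁ q)` (identity if `q` is not a prime `∤ M₁`). -/
def wq : FN (M₁ * q) ≃ₐ[Kb] FN (M₁ * q) :=
  if h : q.Prime ∧ ¬ q ∣ M₁ then Classical.choose (exists_wq M₁ q h.1 h.2) else AlgEquiv.refl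

variable {M₁ q}

theorem wq_alp (hq : q.Prime) (hqM : ¬ q ∣ M₁) (x : FN M₁) :
    wq M₁ q (alp M₁ q x) = bet M₁ q x := by
  rw [wq, dif_pos ⟨hq, hqM⟩]
  exact (Classical.choose_spec (exists_wq M₁ q hq hqM)).1 x

theorem wq_bet (hq : q.Prime) (hqM : ¬ q ∣ M₁) (x : FN M₁) :
    wq M₁ q (bet M₁ q x) = alp M₁ q x := by
  rw [wq, dif_pos ⟨hq, hqM⟩]
  exact (Classical.choose_spec (exists_wq M₁ q hq hqM)).2 x

theorem wq_wq (hq : q.Prime) (hqM : ¬ q ∣ M₁) (z : FN (M₁ * q)) : wq M₁ q (wq M₁ q z) = z := by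
  have key : ((wq M₁ q : FN (M₁ * q) →ₐ[Kb] FN (M₁ * q))).comp
      (wq M₁ q : FN (M₁ * q) →ₐ[Kb] FN (M₁ * q)) = AlgHom.id Kb (FN (M₁ * q)) := by
    apply algHom_ext_alp_bet M₁ q hq
    · intro x
      show wq M₁ q (wq M₁ q (alp M₁ q x)) = alp M₁ q x
      rw [wq_alp hq hqM, wq_bet hq hqM]
    · intro x
      show wq M₁ q (wq M₁ q (bet M₁ q x)) = bet M₁ q x
      rw [wq_bet hq hqM, wq_alp hq hqM]
  exact DFunLike.congr_fun key z

/-- uniqueness of `w_q`. -/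
theorem eq_wq (hq : q.Prime) (hqM : ¬ q ∣ M₁) (w : FN (M₁ * q) →ₐ[Kb] FN (M₁ * q))
    (h1 : ∀ x : FN M₁, w (alp M₁ q x) = bet M₁ q x) (h2 : ∀ x : FN M₁, w (bet M₁ q x) = alp M₁ q x)
    (z : FN (M₁ * q)) : w z = wq M₁ q z := by
  have key : w = (wq M₁ q : FN (M₁ * q) →ₐ[Kb] FN (M₁ * q)) := by
    apply algHom_ext_alp_bet M₁ q hq
    · intro x
      rw [h1]; exact (wq_alp hq hqM x).symm
    · intro x
      rw [h2]; exact (wq_bet hq hqM x).symm
  exact DFunLike.congr_fun key z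

/-- `w_q` on the subfield of level `M₁` is `Q ↦ Q^q`. -/
theorem coe_wq_of_mem (hq : q.Prime) (hqM : ¬ q ∣ M₁) (z : FN (M₁ * q))
    (hz : (z : LaurentSeries Kb) ∈ modularFunctionFieldBar M₁) :
    ((wq M₁ q z : FN (M₁ * q)) : LaurentSeries Kb) = qExpand Kb q (z : LaurentSeries Kb) := by
  have h0 : ((alp M₁ q (⟨z, hz⟩ : FN M₁) : FN (M₁ * q)) : LaurentSeries Kb)
      = (z : LaurentSeries Kb) := coe_heckeAlphaBar M₁ q (⟨z, hz⟩ : FN M₁)
  have h1 : z = alp M₁ q (⟨z, hz⟩ : FN M₁) := Subtype.ext h0.symm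
  have h2 : wq M₁ q z = bet M₁ q (⟨z, hz⟩ : FN M₁) := by
    rw [← wq_alp hq hqM, ← h1]
  rw [h2]
  exact coe_heckeBetaBar M₁ q (⟨z, hz⟩ : FN M₁)

/-- **the conjugates of `z` over level `M₁`**: `(w_q z)(ζ^b Q^{1/q})`. -/
theorem emb_gamB_eq (hq : q.Prime) (hqM : ¬ q ∣ M₁) (u v : ℤ) (h : u * q - v * M₁ = 1) (b : ℤ)
    (z : FN (M₁ * q)) :
    emb M₁ q (gamB M₁ q u v h b) z
      = qExpand ℂ M₁ (twist (rootU q b) (coeffMap iota ((wq M₁ q z : FN (M₁ * q)) : LaurentSeries Kb))) := by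
  have key : emb M₁ q (gamB M₁ q u v h b)
      = (PhiB M₁ q b).comp (wq M₁ q : FN (M₁ * q) →+* FN (M₁ * q)) := by
    apply ringHom_ext_alp_bet M₁ q hq
    · intro x
      show _ = PhiB M₁ q b (wq M₁ q (alp M₁ q x))
      rw [wq_alp hq hqM, emb_gamB_alp]
    · intro x
      show _ = PhiB M₁ q b (wq M₁ q (bet M₁ q x))
      rw [wq_bet hq hqM, emb_gamB_bet']
  exact DFunLike.congr_fun key z

/-- the Galois action on `FN N` (coefficientwise). -/
def galF (N : ℕ) (σ : GAL.GQ) : FN N ≃+* FN N := arithmeticRingAut (modularFunctionFieldFull N) σ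

@[simp] theorem coe_galF (N : ℕ) (σ : GAL.GQ) (z : FN N) :
    ((galF N σ z : FN N) : LaurentSeries Kb) = GAL.galS σ (z : LaurentSeries Kb) := rfl

theorem galF_alp (σ : GAL.GQ) (x : FN M₁) :
    galF (M₁ * q) σ (alp M₁ q x) = alp M₁ q (galF M₁ σ x) := by
  apply Subtype.ext
  rw [coe_galF, coe_heckeAlphaBar, coe_heckeAlphaBar, coe_galF]

theorem galF_bet (σ : GAL.GQ) (x : FN M₁) :
    galF (M₁ * q) σ (bet M₁ q x) = bet M₁ q (galF M₁ σ x) := by
  apply Subtype.ext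
  rw [coe_galF, coe_heckeBetaBar, coe_heckeBetaBar, coe_galF]
  exact coeffMap_qExpand _ q _

/-- `w_q` commutes with the Galois action. -/
theorem wq_galF (hq : q.Prime) (hqM : ¬ q ∣ M₁) (σ : GAL.GQ) (z : FN (M₁ * q)) :
    wq M₁ q (galF (M₁ * q) σ z) = galF (M₁ * q) σ (wq M₁ q z) := by
  have key : ((wq M₁ q : FN (M₁ * q) →+* FN (M₁ * q))).comp
      (galF (M₁ * q) σ : FN (M₁ * q) →+* FN (M₁ * q))
      = ((galF (M₁ * q) σ : FN (M₁ * q) →+* FN (M₁ * q))).comp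
        (wq M₁ q : FN (M₁ * q) →+* FN (M₁ * q)) := by
    apply ringHom_ext_alp_bet M₁ q hq
    · intro x
      show wq M₁ q (galF (M₁ * q) σ (alp M₁ q x)) = galF (M₁ * q) σ (wq M₁ q (alp M₁ q x))
      rw [galF_alp, wq_alp hq hqM, wq_alp hq hqM, galF_bet]
    · intro x
      show wq M₁ q (galF (M₁ * q) σ (bet M₁ q x)) = galF (M₁ * q) σ (wq M₁ q (bet M₁ q x))
      rw [galF_bet, wq_bet hq hqM, wq_bet hq hqM, galF_alp]
  exact DFunLike.congr_fun key z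

end Fermat.Agent.TOR.GB
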