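import Fermat.Agent.TOR.GB.W
import Fermat.Agent.GAL.ESR.Field

/-!
# TOR / GB / Norm : the norm formula `N_{F/F'} z = z · NmL q (w_q z)` at level `M₁ q`

Consequences: `U_q = NmL Qb q` preserves the function field `FL Qb (M₁ q)`, and
`w_q (U_q u) = (w_q u · U_q u)(Q^q) / u`  (`= (w_q u)(Q^q) ∏_{b ≠ 0} u(ζ^b Q)`).
-/

set_option autoImplicit false

open ModularCurve AlgebraicCurve

noncomputable section

namespace Fermat.Agent.TOR.GB

open Fermat.Agent.S24 Fermat.Agent.S28 Fermat.Agent.GR.HeckeField Fermat.Agent.GAL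

variable {M₁ q : ℕ} [NeZero M₁] [NeZero q]

attribute [local instance] algFN

/-- the norm from level `M₁ q` to level `M₁`, in `ℂ((Q^{1/(M₁ q)}))`. -/
theorem kap_norm (hq : q.Prime) (hqM : ¬ q ∣ M₁) (z : FN (M₁ * q)) :
    kap (M₁ * q) (alp M₁ q (Algebra.norm (FN M₁) z)) = kap (M₁ * q) z *
      ∏ b : Fin q, qExpand ℂ M₁ (twist (rootU q ((b : ℕ) : ℤ))
        (coeffMap iota ((wq M₁ q z : FN (M₁ * q)) : LaurentSeries Kb))) := by
  have hcop : IsCoprime (q : ℤ) (M₁ : ℤ) :=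
    Nat.isCoprime_iff_coprime.mpr ((Nat.Prime.coprime_iff_not_dvd hq).mpr hqM)
  obtain ⟨a, b, hab⟩ := hcop
  have h : a * q - (-b) * M₁ = 1 := by linarith
  have := finiteDimensional_FN_mul M₁ q hq hqM
  have key := norm_eq_prod_of_ringHoms (K := FN M₁) (L := FN (M₁ * q))
    (fun i => emb M₁ q (gamI M₁ q a (-b) h i)) (emb_gamI_injective M₁ q hq.two_le a (-b) h)
    (fun i j x => by
      show emb M₁ q _ (alp M₁ q x) = emb M₁ q _ (alp M₁ q x)
      rw [emb_alp M₁ q (gamI_mem M₁ q a (-b) h i), emb_alp M₁ q (gamI_mem M₁ q a (-b) h j)])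
    (by rw [finrank_FN_mul M₁ q hq hqM, Fintype.card_option, Fintype.card_fin]) none z
  rw [Fintype.prod_option] at key
  simp only [gamI] at key
  rw [emb_one, emb_one] at key
  refine key.trans ?_
  congr 1
  exact Finset.prod_congr rfl fun b _ => emb_gamB_eq hq hqM _ _ _ _ z

/-- **(N)** the norm formula. -/
theorem coe_norm_eq (hq : q.Prime) (hqM : ¬ q ∣ M₁) (z : FN (M₁ * q)) :
    ((Algebra.norm (FN M₁) z : FN M₁) : LaurentSeries Qb)
      = (z : LaurentSeries Qb) * NmL Qb q ((wq M₁ q z : FN (M₁ * q)) : LaurentSeries Qb) := by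
  obtain ⟨ζ, hζ⟩ := exists_primitiveRoot_Qb q
  apply qExpand_injective (R := Qb) q
  apply coeffMap_iota_injective
  apply qExpand_injective (R := ℂ) M₁
  have h1 := kap_norm hq hqM z
  rw [kap_apply, kap_apply] at h1
  have e1 : ((alp M₁ q (Algebra.norm (FN M₁) z) : FN (M₁ * q)) : LaurentSeries Kb) =
      ((Algebra.norm (FN M₁) z : FN M₁) : LaurentSeries Kb) := coe_heckeAlphaBar M₁ q _
  rw [e1] at h1
  rw [GR.coeffMap_qExpand, qExpand_qExpand, h1, map_mul, qExpand_NmL q hζ, GR.conjProd, map_mul,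
    map_mul, map_prod, map_prod, GR.coeffMap_qExpand, qExpand_qExpand]
  have hζ' : IsPrimitiveRoot (Units.map (iota : Kb →* ℂ) ζ) q :=
    hζ.map_of_injective (Units.map_injective iota.injective)
  have h2 := prod_pow_primitiveRoot hζ' (isPrimitiveRoot_rootU q)
    (fun ξ => qExpand ℂ M₁ (twist ξ
      (coeffMap iota ((wq M₁ q z : FN (M₁ * q)) : LaurentSeries Kb))))
  congr 1
  simp only [GR.qScale, coeffMap_twist, map_pow]
  rw [h2, Finset.prod_range]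
  exact Finset.prod_congr rfl fun b _ => by rw [rootU_natCast]

/-- `z · U_q (w_q z)` has level `M₁`. -/
theorem mul_NmL_wq_mem (hq : q.Prime) (hqM : ¬ q ∣ M₁) (z : FN (M₁ * q)) :
    (z : LaurentSeries Qb) * NmL Qb q ((wq M₁ q z : FN (M₁ * q)) : LaurentSeries Qb)
      ∈ FL Qb M₁ := by
  rw [← coe_norm_eq hq hqM z]
  exact (Algebra.norm (FN M₁) z).2

/-- `w_q u · U_q u` has level `M₁`. -/
theorem wq_mul_NmL_mem (hq : q.Prime) (hqM : ¬ q ∣ M₁) (u : FN (M₁ * q)) :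
    ((wq M₁ q u : FN (M₁ * q)) : LaurentSeries Qb) * NmL Qb q (u : LaurentSeries Qb)
      ∈ FL Qb M₁ := by
  have := mul_NmL_wq_mem hq hqM (wq M₁ q u)
  rwa [wq_wq hq hqM] at this

theorem FL_le_mul (M₁ q : ℕ) [NeZero M₁] [NeZero q] {x : LaurentSeries Qb} (hx : x ∈ FL Qb M₁) : x ∈ FL Qb (M₁ * q) := by
  have := (alp M₁ q ⟨x, hx⟩).2
  rwa [coe_heckeAlphaBar] at this

/-- **`U_q` preserves the function field of level `M₁ q`.** -/
theorem NmL_mem_FL (hq : q.Prime) (hqM : ¬ q ∣ M₁) {u : LaurentSeries Qb}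
    (hu : u ∈ FL Qb (M₁ * q)) : NmL Qb q u ∈ FL Qb (M₁ * q) := by
  rcases eq_or_ne u 0 with rfl | hu0
  · have h0 : NmL Qb q (0 : LaurentSeries Qb) = 0 := by
      have h1 := NmL_qExpand (R := Qb) q (0 : LaurentSeries Qb)
      rw [map_zero, zero_pow (NeZero.ne q)] at h1
      exact h1
    rw [h0]
    exact zero_mem _
  · have h1 := FL_le_mul M₁ q (wq_mul_NmL_mem hq hqM ⟨u, hu⟩)
    have hw0 : ((wq M₁ q ⟨u, hu⟩ : FN (M₁ * q)) : LaurentSeries Qb) ≠ 0 := by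
      intro h0
      have h2 : wq M₁ q (⟨u, hu⟩ : FN (M₁ * q)) = 0 := Subtype.ext h0
      rw [map_eq_zero_iff _ (wq M₁ q).injective] at h2
      exact hu0 (congrArg Subtype.val h2)
    have h3 : NmL Qb q u = (((wq M₁ q ⟨u, hu⟩ : FN (M₁ * q)) : LaurentSeries Qb))⁻¹ *
        (((wq M₁ q ⟨u, hu⟩ : FN (M₁ * q)) : LaurentSeries Qb) * NmL Qb q u) := by
      rw [← mul_assoc, inv_mul_cancel₀ hw0, one_mul]
    rw [h3]
    exact mul_mem (inv_mem (wq M₁ q ⟨u, hu⟩).2) h1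

/-- `U_q` on the function field. -/
def nmF (hq : q.Prime) (hqM : ¬ q ∣ M₁) : FN (M₁ * q) →* FN (M₁ * q) where
  toFun u := ⟨NmL Qb q (u : LaurentSeries Qb), NmL_mem_FL hq hqM u.2⟩
  map_one' := Subtype.ext (map_one (NmL Qb q))
  map_mul' _ _ := Subtype.ext (map_mul (NmL Qb q) _ _)

@[simp] theorem coe_nmF (hq : q.Prime) (hqM : ¬ q ∣ M₁) (u : FN (M₁ * q)) :
    ((nmF hq hqM u : FN (M₁ * q)) : LaurentSeries Qb) = NmL Qb q (u : LaurentSeries Qb) := rfl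

/-- **(W-U)** `w_q (U_q u) = (w_q u · U_q u)(Q^q) / u`. -/
theorem coe_wq_nmF (hq : q.Prime) (hqM : ¬ q ∣ M₁) (u : FN (M₁ * q)) (hu : u ≠ 0) :
    ((wq M₁ q (nmF hq hqM u) : FN (M₁ * q)) : LaurentSeries Qb)
      = qExpand Qb q (((wq M₁ q u : FN (M₁ * q)) : LaurentSeries Qb)
          * NmL Qb q (u : LaurentSeries Qb)) / (u : LaurentSeries Qb) := by
  have hu0 : (u : LaurentSeries Qb) ≠ 0 := fun h => hu (Subtype.ext h)
  have h1 := coe_wq_of_mem hq hqM (wq M₁ q u * nmF hq hqM u) (wq_mul_NmL_mem hq hqM u)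
  rw [map_mul, wq_wq hq hqM] at h1
  rw [eq_div_iff hu0, mul_comm]
  exact h1

end Fermat.Agent.TOR.GB
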