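import Fermat.Agent.TOR.GB.W
import Fermat.Agent.GR.FormalES

/-!
# TOR / GB / Contract : the concrete contract between T1C (instantiation of `KL2.keyLemma2`) and
T2 / GoalA / GoalB

Level `M = M₁ * q`, `F = FN (M₁ * q)` (`= ↥(FL Qb (M₁ * q))`), `wq M₁ q` the Atkin--Lehner involution,
`galF N σ` the coefficientwise Galois action on `FN N`.
-/

set_option autoImplicit false

open ModularCurve AlgebraicCurve

noncomputable section

namespace Fermat.Agent.TOR.GB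

open Fermat.Agent.S24 Fermat.Agent.GAL

/-- the admissible pairs `(φ, Q)`: `(τ, 1)` with `τ` in the inertia group, `(σ², q²)` with `σ` a
Frobenius lift. -/
def AdmPair (A : ValuationSubring Qb) (q : ℕ) (φ : GQ) (Qe : ℕ) : Prop :=
  (φ ∈ A.inertiaSubgroupIn ℚ ∧ Qe = 1) ∨
    ∃ σ : GQ, A.IsFrobeniusAt σ q ∧ φ = σ * σ ∧ Qe = q ^ 2

/-- **The concrete toric key lemma** at level `M₁ q` (to be proved by T1C from `KL2.keyLemma2`):
if `W ≡ 1` on both components (`W` and `w_q W` reduce to `1`) and `n ∣ div W`, then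
`φ W / W ^ Q` is an `n`-th power. -/
def KL2C (M₁ q : ℕ) [NeZero M₁] [NeZero q] : Prop :=
  ∀ n : ℕ, n ≠ 0 → ¬ q ∣ n → ∀ A : ValuationSubring Qb, A.LiesOverPrime q →
    ∀ (φ : GQ) (Qe : ℕ), AdmPair A q φ Qe →
    ∀ W : FN (M₁ * q), GR.HasRed A (W : LaurentSeries Qb) 1 →
      GR.HasRed A ((wq M₁ q W : FN (M₁ * q)) : LaurentSeries Qb) 1 →
      (∀ P : Place Qb (FL Qb (M₁ * q)), (n : ℤ) ∣ P.ord W) →
      ∃ y : FN (M₁ * q), y ^ n = galF (M₁ * q) φ W / W ^ Qe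

/-- **The idempotent** `θ ≡ (1, 0)`. -/
def ThetaC (M₁ q : ℕ) [NeZero M₁] [NeZero q] : Prop :=
  ∀ A : ValuationSubring Qb, A.LiesOverPrime q →
    ∃ θ : FN (M₁ * q), GR.HasRed A (θ : LaurentSeries Qb) 1 ∧
      GR.HasRed A ((wq M₁ q θ : FN (M₁ * q)) : LaurentSeries Qb) 0

end Fermat.Agent.TOR.GB
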