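import Fermat.Agent.TOR.GB.Apply
import Fermat.Agent.TOR.S34Asm

/-!
# TOR / GB / GoalA : `KL2C` + `ThetaC` ⇒ `GoalA (M₁ * q) q`
-/

set_option autoImplicit false

open ModularCurve AlgebraicCurve

noncomputable section

namespace Fermat.Agent.TOR.GB

open Fermat.Agent.S24 Fermat.Agent.GAL Fermat.Agent.GR

variable {M₁ q : ℕ} [NeZero M₁] [NeZero q] {n : ℕ}

/-- the inertia congruence with an explicit constant. -/
theorem inertia_const {A : ValuationSubring Qb} {τ : GQ} (hτ : τ ∈ A.inertiaSubgroupIn ℚ) (M : ℕ)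
    {u : LaurentSeries Qb} (hu : u ∈ FL Qb M) (hu0 : u ≠ 0) :
    ∃ a : Qb, a ≠ 0 ∧ a ∈ A ∧ a⁻¹ ∈ A ∧ HasRed A (HahnSeries.C a * (galS τ u / u)) 1 := by
  obtain ⟨c₀, hc₀, z, hz, hred⟩ := exists_hasRed_C_mul_of_mem_FL A M hu hu0
  have h := hasRed_inertia hτ hred hz
  obtain ⟨hd, -⟩ := red_decompHom_of_inertia hτ
  refine ⟨τ c₀ / c₀, div_ne_zero ((map_ne_zero τ).mpr hc₀) hc₀, div_mem_of_decomp hd hc₀, ?_, ?_⟩
  · have h1 := div_mem_of_decomp hd (inv_ne_zero hc₀)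
    have h2 : (τ c₀ / c₀)⁻¹ = τ c₀⁻¹ / c₀⁻¹ := by
      rw [map_inv₀, inv_div, div_inv_eq_mul, div_eq_mul_inv, mul_comm]
    rw [h2]
    exact h1
  · convert h using 1
    change _ = galS τ (HahnSeries.C c₀ * u) / (HahnSeries.C c₀ * u)
    simp only [map_mul, galS_C, map_div₀]
    rw [mul_div_mul_comm]

/-- **GOAL A**, elementwise. -/
theorem goalA_elem (hq : q.Prime) (hqM : ¬ q ∣ M₁) (hK : KL2C M₁ q) (hθ : ThetaC M₁ q)
    (hn : n ≠ 0) (hqn : ¬ q ∣ n) {A : ValuationSubring Qb} (hA : A.LiesOverPrime q) {τ : GQ}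
    (hτ : τ ∈ A.inertiaSubgroupIn ℚ) {h : LaurentSeries Qb} (hh : IsKum Qb (M₁ * q) n h) :
    galS τ (galS τ h) * h / (galS τ h) ^ 2 ∈ FL Qb (M₁ * q) := by
  have hh0 : h ≠ 0 := hh.ne_zero
  let f : FN (M₁ * q) := ⟨h ^ n, hh.pow_mem⟩
  have hf0 : f ≠ 0 := fun h0 => pow_ne_zero n hh0 (congrArg Subtype.val h0)
  have hwf0 : wq M₁ q f ≠ 0 := (map_ne_zero_iff _ (wq M₁ q).injective).mpr hf0
  let W0 : FN (M₁ * q) := galF (M₁ * q) τ f / f
  obtain ⟨a₁, ha₁, ha₁A, ha₁A', hr₁⟩ := inertia_const hτ (M₁ * q) f.2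
    (fun h0 => hf0 (Subtype.ext h0))
  obtain ⟨a₂, ha₂, ha₂A, ha₂A', hr₂⟩ := inertia_const hτ (M₁ * q) (wq M₁ q f).2
    (fun h0 => hwf0 (Subtype.ext h0))
  have hwW0 : wq M₁ q W0 = galF (M₁ * q) τ (wq M₁ q f) / wq M₁ q f := by
    rw [map_div₀, wq_galF hq hqM]
  obtain ⟨z, hz0, hz1, hz2⟩ := exists_normalize hθ hn hA ha₁ ha₂
    (by rw [div_eq_mul_inv]; exact A.mul_mem _ _ ha₁A ha₂A')
    (by rw [div_eq_mul_inv]; exact A.mul_mem _ _ ha₂A ha₁A') W0 hr₁ (by rw [hwW0]; exact hr₂)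
  have hz0' : (z : LaurentSeries Qb) ≠ 0 := fun h0 => hz0 (Subtype.ext h0)
  have hR : IsKum Qb (M₁ * q) n (galS τ h / h * (z : LaurentSeries Qb)) :=
    ((hh.galS τ).div hh).mul (isKum_of_mem z.2 hz0')
  have hRn : (⟨(galS τ h / h * (z : LaurentSeries Qb)) ^ n, hR.pow_mem⟩ : FN (M₁ * q))
      = z ^ n * W0 := by
    apply Subtype.ext
    show (galS τ h / h * (z : LaurentSeries Qb)) ^ n
      = (z : LaurentSeries Qb) ^ n * (galS τ (h ^ n) / h ^ n)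
    rw [mul_pow, div_pow, map_pow, mul_comm]
  have key := kl2_apply hK hn hqn hA (Or.inl ⟨hτ, rfl⟩) hR
    (by
      have := congrArg Subtype.val hRn
      rw [show (galS τ h / h * (z : LaurentSeries Qb)) ^ n
        = ((z ^ n * W0 : FN (M₁ * q)) : LaurentSeries Qb) from this]
      exact hz1)
    (by rw [hRn]; exact hz2)
  have hτh : galS τ h ≠ 0 := galS_ne_zero τ hh0
  have hτz : galS τ (z : LaurentSeries Qb) ≠ 0 := galS_ne_zero τ hz0'
  have e : galS τ (galS τ h) * h / (galS τ h) ^ 2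
      = galS τ (galS τ h / h * (z : LaurentSeries Qb)) / (galS τ h / h * (z : LaurentSeries Qb)) ^ 1
        * ((z : LaurentSeries Qb) / galS τ (z : LaurentSeries Qb)) := by
    rw [map_mul, map_div₀, pow_one]
    field_simp
  rw [e]
  exact mul_mem key (div_mem z.2 (galS_mem_FL τ z.2))

/-- **GOAL A** in the form of `TOR/S34Asm.lean`. -/
theorem goalA_of (hq : q.Prime) (hqM : ¬ q ∣ M₁) (hK : KL2C M₁ q) (hθ : ThetaC M₁ q) :
    TOR.GoalA (M₁ * q) q := by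
  intro n hn hqn u hu A hA τ hτ
  have h := goalA_elem hq hqM hK hθ hn hqn hA hτ hu
  show ((CB.galU τ (CB.galU τ u) * u * ((CB.galU τ u) ^ 2)⁻¹ : CB.UU) : LaurentSeries Qb)
    ∈ FL Qb (M₁ * q)
  rw [Units.val_mul, Units.val_mul, Units.val_inv_eq_inv_val, Units.val_pow_eq_pow_val,
    ← div_eq_mul_inv]
  exact h

end Fermat.Agent.TOR.GB
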