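import Fermat.Agent.TOR.GB.Contract
import Fermat.Agent.GAL.Mod.Kum
import Fermat.Agent.GAL.ESR.Gauss
import Fermat.Agent.GAL.KLC.Val

/-!
# TOR / GB / Apply : how to apply the contract `KL2C` to Kummer elements

* `div_mem_of_decomp` : `σ c / c ∈ A` for `σ` in the decomposition group of `A`, `c ≠ 0`.
* `kl2_apply` : `R` Kummer, `Rⁿ ≡ (1, 1)` ⇒ `φ R / R ^ Q ∈ FL`.
* `exists_normalize` : `Rⁿ ≡ (a₁⁻¹, a₂⁻¹)` with `a₁ / a₂` a unit ⇒ `(R z)ⁿ ≡ (1, 1)` for some `z ∈ FL`.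
-/

set_option autoImplicit false

open ModularCurve AlgebraicCurve

noncomputable section

namespace Fermat.Agent.TOR.GB

open Fermat.Agent.S24 Fermat.Agent.GAL Fermat.Agent.GR

/-! ## the decomposition group preserves the valuation -/

theorem apply_mem_of_decomp {A : ValuationSubring Qb} {σ : GQ}
    (hσ : σ ∈ A.decompositionSubgroup ℚ) {x : Qb} (hx : x ∈ A) : σ x ∈ A :=
  (decompHom σ hσ ⟨x, hx⟩).2

theorem apply_not_mem_of_decomp {A : ValuationSubring Qb} {σ : GQ}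
    (hσ : σ ∈ A.decompositionSubgroup ℚ) {x : Qb} (hx : x ∉ A) : σ x ∉ A := by
  intro h
  have h1 := apply_mem_of_decomp (inv_mem hσ) h
  apply hx
  have h2 : σ⁻¹ (σ x) = x := σ.symm_apply_apply x
  rwa [h2] at h1

theorem mul_not_mem {A : ValuationSubring Qb} {x y : Qb} (hx : x ∉ A) (hy : y ∉ A) :
    x * y ∉ A := by
  intro h
  have hx' : x⁻¹ ∈ A := (A.mem_or_inv_mem x).resolve_left hx
  have hx0 : x ≠ 0 := by rintro rfl; exact hx A.zero_mem
  apply hy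
  have : y = x⁻¹ * (x * y) := by field_simp
  rw [this]
  exact A.mul_mem _ _ hx' h

theorem exists_pow_apply_eq (σ : GQ) (c : Qb) : ∃ r : ℕ, 0 < r ∧ (σ ^ r) c = c := by
  classical
  have hint : IsIntegral ℚ c := (AlgebraicClosure.isAlgebraic ℚ).isAlgebraic c |>.isIntegral
  have hfin : ((minpoly ℚ c).rootSet Qb).Finite := Polynomial.rootSet_finite _ _
  have hmem : ∀ i : ℕ, (σ ^ i) c ∈ (minpoly ℚ c).rootSet Qb := by
    intro i
    rw [Polynomial.mem_rootSet]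
    refine ⟨minpoly.ne_zero hint, ?_⟩
    have := Polynomial.aeval_algHom_apply ((σ ^ i : GQ) : Qb →ₐ[ℚ] Qb) c (minpoly ℚ c)
    rw [minpoly.aeval, map_zero] at this
    exact this
  have := hfin.to_subtype
  obtain ⟨i, j, hij, h⟩ := Finite.exists_ne_map_eq_of_infinite
    (fun i : ℕ => (⟨(σ ^ i) c, hmem i⟩ : (minpoly ℚ c).rootSet Qb))
  have h' : (σ ^ i) c = (σ ^ j) c := congrArg Subtype.val h
  have key : ∀ i j : ℕ, i < j → (σ ^ i) c = (σ ^ j) c → ∃ r : ℕ, 0 < r ∧ (σ ^ r) c = c := by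
    intro i j hlt he
    refine ⟨j - i, Nat.sub_pos_of_lt hlt, ?_⟩
    have h1 : σ ^ j = σ ^ i * σ ^ (j - i) := by rw [← pow_add]; congr 1; omega
    rw [h1] at he
    exact ((σ ^ i).injective he).symm
  rcases lt_or_gt_of_ne hij with hlt | hlt
  · exact key i j hlt h'
  · exact key j i hlt h'.symm

/-- `σ c / c ∈ A` for `σ` in the decomposition group. -/
theorem div_mem_of_decomp {A : ValuationSubring Qb} {σ : GQ}
    (hσ : σ ∈ A.decompositionSubgroup ℚ) {c : Qb} (hc : c ≠ 0) : σ c / c ∈ A := by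
  by_contra hn
  obtain ⟨r, hr, hrc⟩ := exists_pow_apply_eq σ c
  have h1 : ∀ i : ℕ, (σ ^ i) (σ c / c) ∉ A := by
    intro i
    exact apply_not_mem_of_decomp (pow_mem hσ i) hn
  have h2 : ∀ k : ℕ, (σ ^ (k + 1)) c / c ∉ A := by
    intro k
    induction k with
    | zero => simpa using hn
    | succ k ih =>
      have h3 : (σ ^ (k + 1 + 1)) c / c = ((σ ^ (k + 1)) c / c) * (σ ^ (k + 1)) (σ c / c) := by
        have h4 : (σ ^ (k + 1)) c ≠ 0 := (map_ne_zero _).mpr hc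
        have h5 : (σ ^ (k + 1 + 1)) c = (σ ^ (k + 1)) (σ c) := by
          rw [pow_succ (σ) (k + 1)]; rfl
        rw [map_div₀, h5]
        field_simp
      rw [h3]
      exact mul_not_mem ih (h1 _)
  obtain ⟨k, rfl⟩ := Nat.exists_eq_succ_of_ne_zero hr.ne'
  apply h2 k
  rw [Nat.succ_eq_add_one] at hrc
  rw [hrc, div_self hc]
  exact A.one_mem

theorem mem_of_pow_mem' {A : ValuationSubring Qb} {x : Qb} {n : ℕ} (hn : n ≠ 0) (h : x ^ n ∈ A) :
    x ∈ A := by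
  by_contra hx
  have : ∀ k : ℕ, x ^ (k + 1) ∉ A := by
    intro k
    induction k with
    | zero => simpa using hx
    | succ k ih => rw [pow_succ]; exact mul_not_mem ih hx
  obtain ⟨k, rfl⟩ := Nat.exists_eq_succ_of_ne_zero hn
  exact this k h

/-! ## application of the contract -/

variable {M₁ q : ℕ} [NeZero M₁] [NeZero q] {n : ℕ}

/-- **the toric key lemma for Kummer elements.** -/
theorem kl2_apply (hK : KL2C M₁ q) (hn : n ≠ 0) (hqn : ¬ q ∣ n) {A : ValuationSubring Qb}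
    (hA : A.LiesOverPrime q) {φ : GQ} {Qe : ℕ} (hφ : AdmPair A q φ Qe) {R : LaurentSeries Qb}
    (hR : IsKum Qb (M₁ * q) n R) (h1 : HasRed A (R ^ n) 1)
    (h2 : HasRed A ((wq M₁ q ⟨R ^ n, hR.pow_mem⟩ : FN (M₁ * q)) : LaurentSeries Qb) 1) :
    galS φ R / R ^ Qe ∈ FL Qb (M₁ * q) := by
  obtain ⟨y, hy⟩ := hK n hn hqn A hA φ Qe hφ ⟨R ^ n, hR.pow_mem⟩ h1 h2 hR.2.2
  have hR0 : R ≠ 0 := hR.ne_zero
  have hy' : (y : LaurentSeries Qb) ^ n = galS φ (R ^ n) / (R ^ n) ^ Qe :=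
    congrArg Subtype.val hy
  have hX0 : galS φ (R ^ n) / (R ^ n) ^ Qe ≠ 0 :=
    div_ne_zero (galS_ne_zero φ (pow_ne_zero n hR0)) (pow_ne_zero _ (pow_ne_zero n hR0))
  have hy0 : (y : LaurentSeries Qb) ≠ 0 := by
    intro h0
    rw [h0, zero_pow hn] at hy'
    exact hX0 hy'.symm
  have h3 : galS φ R / R ^ Qe / (y : LaurentSeries Qb) ∈ FL Qb (M₁ * q) := by
    apply mem_FL_of_pow_eq_C (M₁ * q) hn (c := 1)
    rw [div_pow, hy', div_pow, ← map_pow, ← pow_mul, ← pow_mul, mul_comm Qe n, div_self, map_one]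
    rw [pow_mul]
    exact hX0
  have h4 : galS φ R / R ^ Qe = galS φ R / R ^ Qe / (y : LaurentSeries Qb) * y := by
    field_simp
  rw [h4]
  exact mul_mem h3 y.2

theorem hasRed_C_of_mem {A : ValuationSubring Qb} {g : Qb} (hg : g ∈ A) :
    HasRed A (HahnSeries.C g) (HahnSeries.C (IsLocalRing.residue A ⟨g, hg⟩)) :=
  KLC.hasRed_C A ⟨g, hg⟩

/-- **normalisation of the constants** by means of the idempotent `θ`. -/
theorem exists_normalize (hθ : ThetaC M₁ q) (hn : n ≠ 0)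
    {A : ValuationSubring Qb}
    (hA : A.LiesOverPrime q) {a₁ a₂ : Qb} (ha₁ : a₁ ≠ 0) (ha₂ : a₂ ≠ 0) (h12 : a₁ / a₂ ∈ A)
    (h21 : a₂ / a₁ ∈ A) (W : FN (M₁ * q))
    (h1 : HasRed A (HahnSeries.C a₁ * (W : LaurentSeries Qb)) 1)
    (h2 : HasRed A (HahnSeries.C a₂ * ((wq M₁ q W : FN (M₁ * q)) : LaurentSeries Qb)) 1) :
    ∃ z : FN (M₁ * q), z ≠ 0 ∧ HasRed A (((z ^ n * W : FN (M₁ * q))) : LaurentSeries Qb) 1 ∧
      HasRed A ((wq M₁ q (z ^ n * W) : FN (M₁ * q)) : LaurentSeries Qb) 1 := by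
  obtain ⟨θ, hθ1, hθ2⟩ := hθ A hA
  obtain ⟨γ₁, hγ₁⟩ := IsAlgClosed.exists_pow_nat_eq a₁ (Nat.pos_of_ne_zero hn)
  obtain ⟨γ₂, hγ₂⟩ := IsAlgClosed.exists_pow_nat_eq a₂ (Nat.pos_of_ne_zero hn)
  have hg1 : γ₁ ≠ 0 := by rintro rfl; rw [zero_pow hn] at hγ₁; exact ha₁ hγ₁.symm
  have hg2 : γ₂ ≠ 0 := by rintro rfl; rw [zero_pow hn] at hγ₂; exact ha₂ hγ₂.symm
  have hm12 : γ₁ / γ₂ ∈ A := mem_of_pow_mem' hn (by rw [div_pow, hγ₁, hγ₂]; exact h12)
  have hm21 : γ₂ / γ₁ ∈ A := mem_of_pow_mem' hn (by rw [div_pow, hγ₁, hγ₂]; exact h21)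
  have hC : ∀ c : Qb, ((algebraMap Qb (FN (M₁ * q)) c : FN (M₁ * q)) : LaurentSeries Qb)
      = HahnSeries.C c := fun c => (C_eq_algebraMap c).symm
  have hCne : ∀ c : Qb, c ≠ 0 → (HahnSeries.C c : LaurentSeries Qb) ≠ 0 := by
    intro c hc h
    apply hc
    have := congrArg (fun f : LaurentSeries Qb => f.coeff 0) h
    simpa using this
  let z : FN (M₁ * q) := algebraMap Qb _ γ₁ * θ + algebraMap Qb _ γ₂ * (1 - θ)
  -- reductions of `z / γ₁` and `w z / γ₂`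
  have hz1 : HasRed A ((HahnSeries.C γ₁)⁻¹ * (z : LaurentSeries Qb)) 1 := by
    have e : (HahnSeries.C γ₁)⁻¹ * (z : LaurentSeries Qb)
        = (θ : LaurentSeries Qb) + HahnSeries.C (γ₂ / γ₁) * (1 + -(θ : LaurentSeries Qb)) := by
      show (HahnSeries.C γ₁)⁻¹ * (((algebraMap Qb (FN (M₁ * q)) γ₁ : FN (M₁ * q)) : LaurentSeries Qb)
        * (θ : LaurentSeries Qb)
        + ((algebraMap Qb (FN (M₁ * q)) γ₂ : FN (M₁ * q)) : LaurentSeries Qb)
          * (1 - (θ : LaurentSeries Qb))) = _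
      rw [hC, hC, map_div₀]
      have := hCne γ₁ hg1
      field_simp
      ring
    rw [e]
    have h3 := hθ1.add ((hasRed_C_of_mem hm21).mul (HasRed.one.add (KLC.hasRed_neg hθ1)))
    simpa using h3
  have hz2 : HasRed A ((HahnSeries.C γ₂)⁻¹ * ((wq M₁ q z : FN (M₁ * q)) : LaurentSeries Qb)) 1 := by
    have e : (HahnSeries.C γ₂)⁻¹ * ((wq M₁ q z : FN (M₁ * q)) : LaurentSeries Qb)
        = HahnSeries.C (γ₁ / γ₂) * ((wq M₁ q θ : FN (M₁ * q)) : LaurentSeries Qb)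
          + (1 + -((wq M₁ q θ : FN (M₁ * q)) : LaurentSeries Qb)) := by
      have hwz : wq M₁ q z = algebraMap Qb _ γ₁ * wq M₁ q θ
          + algebraMap Qb _ γ₂ * (1 - wq M₁ q θ) := by
        simp only [z, map_add, map_mul, map_sub, map_one, AlgEquiv.commutes]
      rw [hwz]
      show (HahnSeries.C γ₂)⁻¹ * (((algebraMap Qb (FN (M₁ * q)) γ₁ : FN (M₁ * q)) : LaurentSeries Qb)
        * ((wq M₁ q θ : FN (M₁ * q)) : LaurentSeries Qb)
        + ((algebraMap Qb (FN (M₁ * q)) γ₂ : FN (M₁ * q)) : LaurentSeries Qb)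
          * (1 - ((wq M₁ q θ : FN (M₁ * q)) : LaurentSeries Qb))) = _
      rw [hC, hC, map_div₀]
      have := hCne γ₂ hg2
      field_simp
      ring
    rw [e]
    have h3 := ((hasRed_C_of_mem hm12).mul hθ2).add (HasRed.one.add (KLC.hasRed_neg hθ2))
    simpa using h3
  have hz0 : z ≠ 0 := by
    intro h0
    have h3 := hz1.ne_zero one_ne_zero
    apply h3
    rw [h0]
    simp
  refine ⟨z, hz0, ?_, ?_⟩
  · have e : (((z ^ n * W : FN (M₁ * q))) : LaurentSeries Qb)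
        = ((HahnSeries.C γ₁)⁻¹ * (z : LaurentSeries Qb)) ^ n
          * (HahnSeries.C a₁ * (W : LaurentSeries Qb)) := by
      show (z : LaurentSeries Qb) ^ n * (W : LaurentSeries Qb) = _
      rw [← hγ₁, map_pow, mul_pow, inv_pow]
      have := pow_ne_zero n (hCne γ₁ hg1)
      field_simp
    rw [e]
    have h3 := (hz1.pow n).mul h1
    simpa using h3
  · have e : ((wq M₁ q (z ^ n * W) : FN (M₁ * q)) : LaurentSeries Qb)
        = ((HahnSeries.C γ₂)⁻¹ * ((wq M₁ q z : FN (M₁ * q)) : LaurentSeries Qb)) ^ n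
          * (HahnSeries.C a₂ * ((wq M₁ q W : FN (M₁ * q)) : LaurentSeries Qb)) := by
      rw [map_mul, map_pow]
      show ((wq M₁ q z : FN (M₁ * q)) : LaurentSeries Qb) ^ n
        * ((wq M₁ q W : FN (M₁ * q)) : LaurentSeries Qb) = _
      rw [← hγ₂, map_pow, mul_pow, inv_pow]
      have := pow_ne_zero n (hCne γ₂ hg2)
      field_simp
    rw [e]
    have h3 := (hz2.pow n).mul h2
    simpa using h3

end Fermat.Agent.TOR.GB
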